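import Mathlib

set_option autoImplicit false
set_option linter.style.haveILetI false

namespace Fermat.Agent.QRLib

open Polynomial

section core

variable {k : Type} [Field k] {G : Type} [Group G] {W : Type} [AddCommGroup W] [Module k W]

/-- the pairs relation: span of the pairs `(π g, d g • π g⁻¹)` -/
def q1R (π : G →* Module.End k W) (d : G →* kˣ) :
    Submodule k (Module.End k W × Module.End k W) :=
  Submodule.span k (Set.range fun g : G => (π g, ((d g : kˣ) : k) • π g⁻¹))

variable {π : G →* Module.End k W} {d : G →* kˣ} {t : G → k}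

theorem q1_gen_mem (g : G) : (π g, ((d g : kˣ) : k) • π g⁻¹) ∈ q1R π d :=
  Submodule.subset_span ⟨g, rfl⟩

theorem q1_one_mem : ((1 : Module.End k W), (1 : Module.End k W)) ∈ q1R π d := by
  have := q1_gen_mem (π := π) (d := d) 1
  simpa using this

theorem q1_mul_inv (g : G) : π g * π g⁻¹ = 1 := by
  rw [← map_mul, mul_inv_cancel, map_one]

theorem q1_inv_mul (g : G) : π g⁻¹ * π g = 1 := by
  rw [← map_mul, inv_mul_cancel, map_one]

theorem q1_gen_add (hq : ∀ g, π g * π g - t g • π g + ((d g : kˣ) : k) • (1 : Module.End k W) = 0)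
    (g : G) : π g + ((d g : kˣ) : k) • π g⁻¹ = t g • (1 : Module.End k W) := by
  have h := congrArg (fun x => x * π g⁻¹) (hq g)
  simp only [add_mul, sub_mul, mul_assoc, q1_mul_inv, mul_one, smul_mul_assoc, one_mul,
    zero_mul] at h
  rw [← sub_eq_zero, ← h]
  abel

theorem q1_add (hq : ∀ g, π g * π g - t g • π g + ((d g : kˣ) : k) • (1 : Module.End k W) = 0)
    {z : Module.End k W × Module.End k W} (hz : z ∈ q1R π d) :
    ∃ τ : k, z.1 + z.2 = τ • (1 : Module.End k W) := by
  induction hz using Submodule.span_induction with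
  | mem x hx =>
    obtain ⟨g, rfl⟩ := hx
    exact ⟨t g, q1_gen_add hq g⟩
  | zero => exact ⟨0, by simp⟩
  | add x y _ _ hx hy =>
    obtain ⟨a, ha⟩ := hx
    obtain ⟨b, hb⟩ := hy
    refine ⟨a + b, ?_⟩
    rw [add_smul, ← ha, ← hb]
    simp only [Prod.fst_add, Prod.snd_add]
    abel
  | smul c x _ hx =>
    obtain ⟨a, ha⟩ := hx
    refine ⟨c * a, ?_⟩
    rw [mul_smul, ← ha]
    simp [smul_add]

theorem q1_swap {z : Module.End k W × Module.End k W} (hz : z ∈ q1R π d) :
    (z.2, z.1) ∈ q1R π d := by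
  induction hz using Submodule.span_induction with
  | mem x hx =>
    obtain ⟨g, rfl⟩ := hx
    have h := (q1R π d).smul_mem ((d g : kˣ) : k) (q1_gen_mem (π := π) (d := d) g⁻¹)
    have h2 : ((d g : kˣ) : k) * ((d g⁻¹ : kˣ) : k) = 1 := by
      rw [← Units.val_mul, ← map_mul, mul_inv_cancel, map_one, Units.val_one]
    simpa [Prod.smul_mk, smul_smul, h2] using h
  | zero => exact (q1R π d).zero_mem
  | add x y _ _ hx hy => simpa using (q1R π d).add_mem hx hy
  | smul c x _ hx => simpa using (q1R π d).smul_mem c hx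

theorem q1_mul {z w : Module.End k W × Module.End k W} (hz : z ∈ q1R π d) (hw : w ∈ q1R π d) :
    (z.1 * w.1, w.2 * z.2) ∈ q1R π d := by
  induction hz using Submodule.span_induction with
  | mem x hx =>
    obtain ⟨g, rfl⟩ := hx
    induction hw using Submodule.span_induction with
    | mem y hy =>
      obtain ⟨h, rfl⟩ := hy
      have := q1_gen_mem (π := π) (d := d) (g * h)
      simpa [map_mul, mul_inv_rev, smul_smul, mul_comm] using this
    | zero =>
      have := (q1R π d).zero_mem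
      simpa [Prod.zero_eq_mk] using this
    | add x y _ _ hx hy => simpa [mul_add, add_mul] using (q1R π d).add_mem hx hy
    | smul c x _ hx => simpa [smul_comm c] using (q1R π d).smul_mem c hx
  | zero =>
    have := (q1R π d).zero_mem
    simpa [Prod.zero_eq_mk] using this
  | add x y _ _ hx hy => simpa [mul_add, add_mul] using (q1R π d).add_mem hx hy
  | smul c x _ hx => simpa using (q1R π d).smul_mem c hx

theorem q1_norm (hq : ∀ g, π g * π g - t g • π g + ((d g : kˣ) : k) • (1 : Module.End k W) = 0)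
    {z : Module.End k W × Module.End k W} (hz : z ∈ q1R π d) :
    ∃ ν : k, z.1 * z.2 = ν • (1 : Module.End k W) := by
  induction hz using Submodule.span_induction with
  | mem x hx =>
    obtain ⟨g, rfl⟩ := hx
    exact ⟨d g, by simp [q1_mul_inv]⟩
  | zero => exact ⟨0, by simp⟩
  | add x y hx' hy' hx hy =>
    obtain ⟨a, ha⟩ := hx
    obtain ⟨b, hb⟩ := hy
    obtain ⟨c, hc⟩ := q1_add hq (q1_mul hx' (q1_swap hy'))
    refine ⟨a + b + c, ?_⟩
    simp only at hc
    rw [add_smul, add_smul, ← ha, ← hb, ← hc]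
    simp only [Prod.fst_add, Prod.snd_add, mul_add, add_mul]
    abel
  | smul c x _ hx =>
    obtain ⟨a, ha⟩ := hx
    refine ⟨c * c * a, ?_⟩
    rw [mul_smul, mul_smul, ← ha]
    simp [smul_smul]

theorem q1_comm (hq : ∀ g, π g * π g - t g • π g + ((d g : kˣ) : k) • (1 : Module.End k W) = 0)
    {z : Module.End k W × Module.End k W} (hz : z ∈ q1R π d) : z.2 * z.1 = z.1 * z.2 := by
  obtain ⟨τ, hτ⟩ := q1_add hq hz
  have h : z.2 = τ • (1 : Module.End k W) - z.1 := by rw [← hτ]; abel
  rw [h]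
  simp [sub_mul, mul_sub]

/-- transitivity of the span of the image on a simple module -/
theorem q1_trans
    (hirr : ∀ U : Submodule k W, (∀ g, ∀ x ∈ U, π g x ∈ U) → U = ⊥ ∨ U = ⊤)
    {w : W} (hw : w ≠ 0) (w₁ : W) : ∃ z ∈ q1R π d, z.1 w = w₁ := by
  let U : Submodule k W :=
    (q1R π d).map ((LinearMap.applyₗ w).comp (LinearMap.fst k (Module.End k W) (Module.End k W)))
  have hU : ∀ x, x ∈ U ↔ ∃ z ∈ q1R π d, z.1 w = x := by
    intro x
    simp only [U, Submodule.mem_map]
    rfl
  have hst : ∀ g, ∀ x ∈ U, π g x ∈ U := by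
    intro g x hx
    obtain ⟨z, hz, rfl⟩ := (hU x).1 hx
    exact (hU _).2 ⟨_, q1_mul (q1_gen_mem g) hz, rfl⟩
  have hwU : w ∈ U := (hU w).2 ⟨_, q1_one_mem, rfl⟩
  rcases hirr U hst with h | h
  · rw [h] at hwU
    exact absurd ((Submodule.mem_bot k).1 hwU) hw
  · exact (hU w₁).1 (h ▸ Submodule.mem_top)

/-- `a B a ⊆ k a` when `a a' = 0` -/
theorem q1_aBa (hq : ∀ g, π g * π g - t g • π g + ((d g : kˣ) : k) • (1 : Module.End k W) = 0)
    {z y : Module.End k W × Module.End k W} (hz : z ∈ q1R π d) (hy : y ∈ q1R π d)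
    (h0 : z.1 * z.2 = 0) : ∃ s : k, z.1 * y.1 * z.1 = s • z.1 := by
  obtain ⟨s, hs⟩ := q1_add hq (q1_mul hz hy)
  refine ⟨s, ?_⟩
  simp only at hs
  have h := congrArg (fun x => x * z.1) hs
  simp only [add_mul, mul_assoc, q1_comm hq hz, h0, mul_zero, add_zero, smul_mul_assoc,
    one_mul] at h
  rw [mul_assoc, h]

theorem q1_rank_one
    (hq : ∀ g, π g * π g - t g • π g + ((d g : kˣ) : k) • (1 : Module.End k W) = 0)
    (hirr : ∀ U : Submodule k W, (∀ g, ∀ x ∈ U, π g x ∈ U) → U = ⊥ ∨ U = ⊤)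
    {z : Module.End k W × Module.End k W} (hz : z ∈ q1R π d) (hz1 : z.1 ≠ 0)
    (h0 : z.1 * z.2 = 0) : ∃ u : W, ∀ w, ∃ c : k, z.1 w = c • u := by
  obtain ⟨w₀, hw₀⟩ : ∃ w₀, z.1 w₀ ≠ 0 := by
    by_contra hcon
    push Not at hcon
    exact hz1 (LinearMap.ext hcon)
  refine ⟨z.1 w₀, fun w => ?_⟩
  obtain ⟨y, hy, hyw⟩ := q1_trans (d := d) hirr hw₀ w
  obtain ⟨s, hs⟩ := q1_aBa hq hz hy h0
  refine ⟨s, ?_⟩
  rw [← hyw]
  exact LinearMap.congr_fun hs w₀

/-- Case A: a zero divisor pair forces dimension at most two. -/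
theorem q1_caseA
    (hq : ∀ g, π g * π g - t g • π g + ((d g : kˣ) : k) • (1 : Module.End k W) = 0)
    (hirr : ∀ U : Submodule k W, (∀ g, ∀ x ∈ U, π g x ∈ U) → U = ⊥ ∨ U = ⊤)
    {z : Module.End k W × Module.End k W} (hz : z ∈ q1R π d) (hz1 : z.1 ≠ 0) (hz2 : z.2 ≠ 0)
    (h0 : z.1 * z.2 = 0) : ∃ u u' : W, ∀ w, w ∈ Submodule.span k {u, u'} := by
  obtain ⟨w₀, hw₀⟩ : ∃ w₀, z.1 w₀ ≠ 0 := by
    by_contra hcon
    push Not at hcon
    exact hz1 (LinearMap.ext hcon)
  obtain ⟨y, hy, hyw⟩ := q1_trans (d := d) hirr hw₀ w₀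
  have hc := q1_mul hz hy
  set c : Module.End k W × Module.End k W := (z.1 * y.1, y.2 * z.2) with hcdef
  obtain ⟨ν, hν⟩ := q1_norm hq hy
  have hcc : c.1 * c.2 = 0 := by
    simp only [hcdef]
    rw [mul_assoc, ← mul_assoc y.1, hν]
    simp [h0]
  have hc1 : c.1 (z.1 w₀) = z.1 w₀ := by
    simp only [hcdef, Module.End.mul_apply, hyw]
  have hc2 : c.2 (z.1 w₀) = 0 := by
    simp only [hcdef, Module.End.mul_apply]
    have : z.2 (z.1 w₀) = 0 := by
      have := LinearMap.congr_fun ((q1_comm hq hz).trans h0) w₀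
      simpa using this
    rw [this, map_zero]
  obtain ⟨τ, hτ⟩ := q1_add hq hc
  have hτ1 : τ = 1 := by
    have := LinearMap.congr_fun hτ (z.1 w₀)
    simp only [LinearMap.add_apply, hc1, hc2, add_zero, LinearMap.smul_apply,
      Module.End.one_apply] at this
    have h2 : (τ - 1) • z.1 w₀ = 0 := by rw [sub_smul, one_smul, ← this, sub_self]
    rcases smul_eq_zero.1 h2 with h | h
    · exact sub_eq_zero.1 h
    · exact absurd h hw₀
  have hcne : c.1 ≠ 0 := by
    intro h
    rw [h] at hc1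
    exact hw₀ (by simpa using hc1.symm)
  have hcne' : c.2 ≠ 0 := by
    intro h
    rw [h, add_zero, hτ1, one_smul] at hτ
    -- z.1 * y.1 = 1
    apply hz2
    have : z.2 * (z.1 * y.1) = z.2 := by
      have h3 : c.1 = z.1 * y.1 := rfl
      rw [← h3, hτ, mul_one]
    rw [← this, ← mul_assoc, q1_comm hq hz, h0, zero_mul]
  obtain ⟨u, hu⟩ := q1_rank_one hq hirr hc hcne hcc
  obtain ⟨u', hu'⟩ := q1_rank_one hq hirr (q1_swap hc) hcne' ((q1_comm hq hc).trans hcc)
  refine ⟨u, u', fun w => ?_⟩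
  have hw : w = c.1 w + c.2 w := by
    have := LinearMap.congr_fun hτ w
    rw [hτ1] at this
    simpa using this.symm
  obtain ⟨a, ha⟩ := hu w
  obtain ⟨b, hb⟩ := hu' w
  simp only at hb
  rw [hw, ha, hb]
  exact Submodule.add_mem _ (Submodule.smul_mem _ _ (Submodule.subset_span (by simp)))
    (Submodule.smul_mem _ _ (Submodule.subset_span (by simp)))

theorem q1_unit
    (hq : ∀ g, π g * π g - t g • π g + ((d g : kˣ) : k) • (1 : Module.End k W) = 0)
    (hB : ∀ z ∈ q1R π d, z.1 * z.2 = 0 → z.1 = 0 ∨ z.2 = 0)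
    {z : Module.End k W × Module.End k W} (hz : z ∈ q1R π d) (hz1 : z.1 ≠ 0) :
    ∃ x, x * z.1 = 1 := by
  obtain ⟨ν, hν⟩ := q1_norm hq hz
  by_cases h0 : ν = 0
  · rw [h0, zero_smul] at hν
    rcases hB z hz hν with h | h
    · exact absurd h hz1
    · obtain ⟨τ, hτ⟩ := q1_add hq hz
      rw [h, add_zero] at hτ
      have hτ0 : τ ≠ 0 := by
        rintro rfl
        exact hz1 (by simpa using hτ)
      exact ⟨τ⁻¹ • 1, by rw [hτ]; simp [smul_smul, hτ0]⟩
  · refine ⟨ν⁻¹ • z.2, ?_⟩
    rw [smul_mul_assoc, q1_comm hq hz, hν, smul_smul, inv_mul_cancel₀ h0, one_smul]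

theorem q1_pow_mem {x : Module.End k W} {τ ν : k}
    (hx : x * x = τ • x + ν • (1 : Module.End k W)) (n : ℕ) :
    ∃ a b : k, x ^ n = a • x + b • (1 : Module.End k W) := by
  induction n with
  | zero => exact ⟨0, 1, by simp⟩
  | succ n ih =>
    obtain ⟨a, b, h⟩ := ih
    refine ⟨a * τ + b, a * ν, ?_⟩
    rw [pow_succ, h, add_mul, smul_mul_assoc, hx, smul_mul_assoc, one_mul, smul_add, smul_smul,
      smul_smul, add_smul]
    abel

theorem q1_caseB (p : ℕ) [Fact p.Prime] [CharP k p] [Nontrivial W]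
    (hq : ∀ g, π g * π g - t g • π g + ((d g : kˣ) : k) • (1 : Module.End k W) = 0)
    (hirr : ∀ U : Submodule k W, (∀ g, ∀ x ∈ U, π g x ∈ U) → U = ⊥ ∨ U = ⊤)
    (hfin : (Set.range π).Finite)
    (hB : ∀ z ∈ q1R π d, z.1 * z.2 = 0 → z.1 = 0 ∨ z.2 = 0) :
    ∃ u u' : W, ∀ w, w ∈ Submodule.span k {u, u'} := by
  haveI : CharP (Module.End k W) p :=
    charP_of_injective_algebraMap (algebraMap k (Module.End k W)).injective p
  letI : Algebra (ZMod p) (Module.End k W) := ZMod.algebra (Module.End k W) p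
  let D₀ : Subalgebra (ZMod p) (Module.End k W) := Algebra.adjoin (ZMod p) (Set.range π)
  have hD₀B : ∀ x ∈ D₀, ∃ z ∈ q1R π d, z.1 = x := by
    intro x hx
    induction hx using Algebra.adjoin_induction with
    | mem x hx =>
      obtain ⟨g, rfl⟩ := hx
      exact ⟨_, q1_gen_mem g, rfl⟩
    | algebraMap r =>
      obtain ⟨n, rfl⟩ := ZMod.natCast_zmod_surjective r
      refine ⟨_, (q1R π d).smul_mem (n : k) q1_one_mem, ?_⟩
      rw [map_natCast]
      simp [Nat.cast_smul_eq_nsmul]
    | add x y _ _ hx hy =>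
      obtain ⟨z, hz, rfl⟩ := hx
      obtain ⟨w, hw, rfl⟩ := hy
      exact ⟨_, (q1R π d).add_mem hz hw, rfl⟩
    | mul x y _ _ hx hy =>
      obtain ⟨z, hz, rfl⟩ := hx
      obtain ⟨w, hw, rfl⟩ := hy
      exact ⟨_, q1_mul hz hw, rfl⟩
  haveI : Finite D₀ := by
    have h1 : Subalgebra.toSubmodule D₀ = Submodule.span (ZMod p) (Set.range π) := by
      have : (Submonoid.closure (Set.range π) : Set (Module.End k W)) = Set.range π := by
        rw [← MonoidHom.coe_mrange, Submonoid.closure_eq]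
      rw [Algebra.adjoin_eq_span, this]
    haveI : Module.Finite (ZMod p) (Subalgebra.toSubmodule D₀) := by
      rw [h1]
      exact Module.Finite.span_of_finite _ hfin
    exact Module.finite_of_finite (ZMod p) (M := Subalgebra.toSubmodule D₀)
  haveI : NoZeroDivisors D₀ := by
    refine ⟨fun {a b} hab => ?_⟩
    by_cases ha : a = 0
    · exact Or.inl ha
    · right
      obtain ⟨z, hz, hza⟩ := hD₀B a a.2
      have hz1 : z.1 ≠ 0 := by
        rw [hza]
        exact fun h => ha (Subtype.ext h)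
      obtain ⟨x, hx⟩ := q1_unit hq hB hz hz1
      have h2 : (a : Module.End k W) * b = 0 := congrArg Subtype.val hab
      apply Subtype.ext
      have : (b : Module.End k W) = x * (z.1 * b) := by rw [← mul_assoc, hx, one_mul]
      rw [this, hza, h2, mul_zero]
      rfl
  haveI : IsDomain D₀ := NoZeroDivisors.to_isDomain D₀
  letI : Field D₀ := (Finite.isDomain_to_isField D₀).toField
  obtain ⟨θ, hθ⟩ := IsCyclic.exists_generator (α := D₀ˣ)
  obtain ⟨zθ, hzθ, hzθ1⟩ := hD₀B (θ : D₀) (θ : D₀).2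
  obtain ⟨τ, hτ⟩ := q1_add hq hzθ
  obtain ⟨ν, hν⟩ := q1_norm hq hzθ
  have hθθ : zθ.1 * zθ.1 = τ • zθ.1 + (-ν) • (1 : Module.End k W) := by
    have h : zθ.1 * zθ.1 = zθ.1 * (τ • (1 : Module.End k W) - zθ.2) := by
      rw [← hτ]; congr 1; abel
    rw [h, mul_sub, hν]
    simp [sub_eq_add_neg]
  have hgen : ∀ g : G, ∃ a b : k, π g = a • zθ.1 + b • (1 : Module.End k W) := by
    intro g
    let ug : D₀ˣ :=
      ⟨⟨π g, Algebra.subset_adjoin ⟨g, rfl⟩⟩, ⟨π g⁻¹, Algebra.subset_adjoin ⟨g⁻¹, rfl⟩⟩,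
        Subtype.ext (q1_mul_inv g), Subtype.ext (q1_inv_mul g)⟩
    have h1 : ug ∈ Submonoid.powers θ := by
      rw [mem_powers_iff_mem_zpowers]
      exact hθ ug
    obtain ⟨n, hn⟩ := h1
    have hn : θ ^ n = ug := hn
    have h2 : zθ.1 ^ n = π g := by
      have := congrArg (fun u : D₀ˣ => ((u : D₀) : Module.End k W)) hn
      simp only [Units.val_pow_eq_pow_val, SubmonoidClass.coe_pow] at this
      rw [hzθ1, this]
    rw [← h2]
    exact q1_pow_mem hθθ n
  have hall : ∀ z ∈ q1R π d, ∃ a b : k, z.1 = a • zθ.1 + b • (1 : Module.End k W) := by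
    intro z hz
    induction hz using Submodule.span_induction with
    | mem x hx =>
      obtain ⟨g, rfl⟩ := hx
      exact hgen g
    | zero => exact ⟨0, 0, by simp⟩
    | add x y _ _ hx hy =>
      obtain ⟨a, b, h⟩ := hx
      obtain ⟨a', b', h'⟩ := hy
      refine ⟨a + a', b + b', ?_⟩
      rw [Prod.fst_add, h, h', add_smul, add_smul]
      abel
    | smul c x _ hx =>
      obtain ⟨a, b, h⟩ := hx
      refine ⟨c * a, c * b, ?_⟩
      rw [Prod.smul_fst, h, smul_add, smul_smul, smul_smul]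
  obtain ⟨w₀, hw₀⟩ := exists_ne (0 : W)
  refine ⟨zθ.1 w₀, w₀, fun w => ?_⟩
  obtain ⟨z, hz, hzw⟩ := q1_trans (d := d) hirr hw₀ w
  obtain ⟨a, b, h⟩ := hall z hz
  rw [← hzw, h]
  simp only [LinearMap.add_apply, LinearMap.smul_apply, Module.End.one_apply]
  exact Submodule.add_mem _ (Submodule.smul_mem _ _ (Submodule.subset_span (by simp)))
    (Submodule.smul_mem _ _ (Submodule.subset_span (by simp)))

theorem q1_dim (p : ℕ) [Fact p.Prime] [CharP k p] [Nontrivial W]
    (hq : ∀ g, π g * π g - t g • π g + ((d g : kˣ) : k) • (1 : Module.End k W) = 0)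
    (hirr : ∀ U : Submodule k W, (∀ g, ∀ x ∈ U, π g x ∈ U) → U = ⊥ ∨ U = ⊤)
    (hfin : (Set.range π).Finite) : Module.Finite k W ∧ Module.finrank k W ≤ 2 := by
  have key : ∃ u u' : W, ∀ w, w ∈ Submodule.span k {u, u'} := by
    by_cases hB : ∀ z ∈ q1R π d, z.1 * z.2 = 0 → z.1 = 0 ∨ z.2 = 0
    · exact q1_caseB p hq hirr hfin hB
    · push Not at hB
      obtain ⟨z, hz, h0, h1, h2⟩ := hB
      exact q1_caseA hq hirr hz h1 h2 h0
  obtain ⟨u, u', h⟩ := key
  have htop : Submodule.span k ({u, u'} : Set W) = ⊤ := eq_top_iff.2 fun w _ => h w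
  classical
  have hfg : Module.Finite k W := ⟨⟨{u, u'}, by simpa using htop⟩⟩
  refine ⟨hfg, ?_⟩
  have h1 := finrank_span_finset_le_card (R := k) ({u, u'} : Finset W)
  have h2 : (({u, u'} : Finset W) : Set W) = {u, u'} := by simp
  rw [Set.finrank, h2, htop, finrank_top] at h1
  exact h1.trans Finset.card_le_two

theorem q1_scalar [Nontrivial W]
    (hq : ∀ g, π g * π g - t g • π g + ((d g : kˣ) : k) • (1 : Module.End k W) = 0)
    (hirr : ∀ U : Submodule k W, (∀ g, ∀ x ∈ U, π g x ∈ U) → U = ⊥ ∨ U = ⊤)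
    (hdim : Module.finrank k W ≠ 1) (g : G) (c : k) (hg : π g = c • (1 : Module.End k W)) :
    t g = 2 * c ∧ ((d g : kˣ) : k) = c ^ 2 := by
  have hc0 : c ≠ 0 := by
    rintro rfl
    have := q1_mul_inv (π := π) g
    rw [hg] at this
    simp at this
  have hinv : π g⁻¹ = c⁻¹ • (1 : Module.End k W) := by
    have := q1_mul_inv (π := π) g
    rw [hg, smul_mul_assoc, one_mul] at this
    rw [← this, smul_smul, inv_mul_cancel₀ hc0, one_smul]
  set μ : k := ((d g : kˣ) : k) * c⁻¹ with hμ
  have hmem : (c • (1 : Module.End k W), μ • (1 : Module.End k W)) ∈ q1R π d := by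
    have := q1_gen_mem (π := π) (d := d) g
    rwa [hg, hinv, smul_smul] at this
  have hcμ : c = μ := by
    by_contra hne
    have h10 : ((1 : Module.End k W), (0 : Module.End k W)) ∈ q1R π d := by
      have h1 := (q1R π d).smul_mem (c - μ)⁻¹
        ((q1R π d).sub_mem hmem ((q1R π d).smul_mem μ q1_one_mem))
      have h2 : (c - μ)⁻¹ • ((c • (1 : Module.End k W), μ • (1 : Module.End k W)) -
          μ • ((1 : Module.End k W), (1 : Module.End k W))) = (1, 0) := by
        ext1
        · simp only [Prod.smul_fst, Prod.fst_sub, ← sub_smul, smul_smul]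
          rw [inv_mul_cancel₀ (sub_ne_zero.2 hne), one_smul]
        · simp
      rwa [h2] at h1
    have hsc : ∀ h : G, ∃ τ : k, π h = τ • (1 : Module.End k W) := by
      intro h
      obtain ⟨τ, hτ⟩ := q1_add hq (q1_mul (q1_gen_mem (π := π) (d := d) h) h10)
      exact ⟨τ, by simpa using hτ⟩
    obtain ⟨w₀, hw₀⟩ := exists_ne (0 : W)
    rcases hirr (Submodule.span k {w₀}) (by
      intro h x hx
      obtain ⟨τ, hτ⟩ := hsc h
      rw [hτ]
      simpa using Submodule.smul_mem _ τ hx) with h | h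
    · exact hw₀ (by simpa using h)
    · apply hdim
      rw [← finrank_top, ← h, finrank_span_singleton hw₀]
  have hadd := q1_gen_add hq g
  rw [hg, hinv, smul_smul, ← hμ, ← add_smul, ← hcμ] at hadd
  have hinj : Function.Injective fun a : k => a • (1 : Module.End k W) :=
    smul_left_injective k one_ne_zero
  constructor
  · rw [two_mul]
    exact (hinj hadd).symm
  · have : ((d g : kˣ) : k) = μ * c := by rw [hμ, mul_assoc, inv_mul_cancel₀ hc0, mul_one]
    rw [this, ← hcμ, sq]

theorem q1_charpoly_scalar [Module.Finite k W] (hdim : Module.finrank k W = 2) (c : k) :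
    LinearMap.charpoly (c • (1 : Module.End k W)) = X ^ 2 - C (2 * c) * X + C (c ^ 2) := by
  have h := LinearMap.charpoly_sub_smul (0 : Module.End k W) (-c)
  rw [show (0 : Module.End k W) - (-c) • 1 = c • 1 by simp] at h
  rw [h]
  have h0 : LinearMap.charpoly (0 : Module.End k W) = X ^ 2 := by
    rw [← hdim]; exact LinearMap.charpoly_zero
  rw [h0]
  simp only [pow_comp, X_comp, map_neg, map_mul, map_pow]
  have : (C (2 : k) : k[X]) = 2 := rfl
  rw [this]
  ring

theorem q1_charpoly_nonscalar [Module.Finite k W] [Nontrivial W]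
    (hdim : Module.finrank k W = 2)
    (x : Module.End k W) (a b : k) (hx : x * x - a • x + b • (1 : Module.End k W) = 0)
    (hns : ∀ c : k, x ≠ c • (1 : Module.End k W)) :
    LinearMap.charpoly x = X ^ 2 - C a * X + C b := by
  have hlow : ∀ q : k[X], q.degree < 2 → q = 0 ∨ aeval x q ≠ 0 := by
    intro q hq
    by_contra hcon
    push Not at hcon
    obtain ⟨hq0, hq1⟩ := hcon
    have hq' : q = C (q.coeff 1) * X + C (q.coeff 0) :=
      Polynomial.eq_X_add_C_of_degree_le_one (by
        rw [Polynomial.degree_eq_natDegree hq0] at hq ⊢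
        have h3 : q.natDegree < 2 := by exact_mod_cast hq
        exact_mod_cast Nat.lt_succ_iff.1 h3)
    rw [hq'] at hq1
    simp only [map_add, map_mul, aeval_C, aeval_X, Algebra.algebraMap_eq_smul_one,
      smul_mul_assoc, one_mul] at hq1
    by_cases h1 : q.coeff 1 = 0
    · rw [h1, zero_smul, zero_add] at hq1
      have h0 : q.coeff 0 = 0 := by
        rcases smul_eq_zero.1 hq1 with h | h
        · exact h
        · exact absurd h one_ne_zero
      apply hq0
      rw [hq', h1, h0]
      simp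
    · apply hns (-(q.coeff 1)⁻¹ * q.coeff 0)
      have : x = (q.coeff 1)⁻¹ • (q.coeff 1 • x) := by rw [smul_smul, inv_mul_cancel₀ h1, one_smul]
      rw [this, eq_neg_of_add_eq_zero_left hq1, smul_neg, smul_smul, neg_mul, neg_smul]
  have hP : (X ^ 2 - C a * X + C b : k[X]).Monic := by
    monicity!
  have hPd : (X ^ 2 - C a * X + C b : k[X]).degree = 2 := by
    compute_degree!
  have h1 : (X ^ 2 - C a * X + C b : k[X]) = minpoly k x := by
    apply minpoly.unique' k x hP
    · simp only [map_add, map_sub, map_mul, map_pow, aeval_C, aeval_X,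
        Algebra.algebraMap_eq_smul_one, smul_mul_assoc, one_mul]
      rw [sq]; exact hx
    · intro q hq
      rw [hPd] at hq
      exact hlow q hq
  have h2 : LinearMap.charpoly x = minpoly k x := by
    apply minpoly.unique' k x (LinearMap.charpoly_monic x) (LinearMap.aeval_self_charpoly x)
    intro q hq
    apply hlow q
    have : (LinearMap.charpoly x).degree = 2 := by
      rw [Polynomial.degree_eq_natDegree (LinearMap.charpoly_monic x).ne_zero,
        LinearMap.charpoly_natDegree, hdim]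
      rfl
    rwa [this] at hq
  rw [h1, h2]

end core

section final

variable {k : Type} [Field k] {G : Type} [Group G]

theorem q1_exists_simple {V : Type} [AddCommGroup V] [Module k V] [Nontrivial V]
    (π : G →* Module.End k V) (hfin : (Set.range π).Finite) :
    ∃ U : Submodule k V, U ≠ ⊥ ∧ (∀ g, ∀ x ∈ U, π g x ∈ U) ∧
      ∀ U' : Submodule k V, U' ≤ U → (∀ g, ∀ x ∈ U', π g x ∈ U') → U' = ⊥ ∨ U' = U := by
  obtain ⟨v, hv⟩ := exists_ne (0 : V)
  let W₀ : Submodule k V := Submodule.span k ((fun f : Module.End k V => f v) '' Set.range π)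
  have hW₀fd : FiniteDimensional k W₀ := FiniteDimensional.span_of_finite k (hfin.image _)
  have hW₀st : ∀ g, ∀ x ∈ W₀, π g x ∈ W₀ := by
    intro g x hx
    induction hx using Submodule.span_induction with
    | mem x hx =>
      obtain ⟨_, ⟨h, rfl⟩, rfl⟩ := hx
      refine Submodule.subset_span ⟨π (g * h), ⟨_, rfl⟩, ?_⟩
      simp [map_mul]
    | zero => simp
    | add x y _ _ hx hy => rw [map_add]; exact W₀.add_mem hx hy
    | smul c x _ hx => rw [map_smul]; exact W₀.smul_mem c hx
  have hW₀ne : W₀ ≠ ⊥ := by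
    intro h
    have : v ∈ W₀ := Submodule.subset_span ⟨π 1, ⟨1, rfl⟩, by simp⟩
    rw [h] at this
    exact hv (by simpa using this)
  let S : Set (Submodule k V) :=
    {U | U ≠ ⊥ ∧ (∀ g, ∀ x ∈ U, π g x ∈ U) ∧ FiniteDimensional k U}
  obtain ⟨U, hU, hmin⟩ := (measure (fun U : Submodule k V => Module.finrank k U)).wf.has_min S
    ⟨W₀, hW₀ne, hW₀st, hW₀fd⟩
  obtain ⟨hUne, hUst, hUfd⟩ := hU
  refine ⟨U, hUne, hUst, fun U' hle hst => ?_⟩
  by_cases hb : U' = ⊥
  · exact Or.inl hb
  · right
    have hfd' : FiniteDimensional k U' := Submodule.finiteDimensional_of_le hle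
    have h1 := hmin U' ⟨hb, hst, hfd'⟩
    exact Submodule.eq_of_le_of_finrank_le hle (not_lt.1 h1)

theorem q1_charpoly_scalar' {W : Type} [AddCommGroup W] [Module k W] [Module.Finite k W] (c : k) :
    LinearMap.charpoly (c • (1 : Module.End k W)) = (X - C c) ^ Module.finrank k W := by
  have h := LinearMap.charpoly_sub_smul (0 : Module.End k W) (-c)
  rw [show (0 : Module.End k W) - (-c) • 1 = c • 1 by simp] at h
  rw [h]
  have h0 : LinearMap.charpoly (0 : Module.End k W) = X ^ Module.finrank k W :=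
    LinearMap.charpoly_zero
  rw [h0]
  simp [sub_eq_add_neg]

/-- the one dimensional case -/
theorem q1_dim_one {W : Type} [AddCommGroup W] [Module k W]
    (π : G →* Module.End k W) (d : G →* kˣ) (t : G → k)
    (hq : ∀ g, π g * π g - t g • π g + ((d g : kˣ) : k) • (1 : Module.End k W) = 0)
    (hdim : Module.finrank k W = 1) :
    ∃ (π' : G →* Module.End k (k × k)),
      (∀ g, LinearMap.charpoly (π' g) = X ^ 2 - C (t g) * X + C (d g : k)) ∧
      (∀ g, π g = 1 → d g = 1 → π' g = 1) := by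
  haveI : Module.Finite k W := Module.finite_of_finrank_eq_succ hdim
  obtain ⟨w₀, hw₀⟩ := Module.finrank_pos_iff_exists_ne_zero.1
    (hdim ▸ Nat.one_pos : 0 < Module.finrank k W)
  have hsp := (finrank_eq_one_iff_of_nonzero' w₀ hw₀).1 hdim
  choose c hc using fun g : G => hsp (π g w₀)
  have hinj : ∀ a b : k, a • w₀ = b • w₀ → a = b := fun a b h => smul_left_injective k hw₀ h
  let χ₀ : G →* k :=
    { toFun := c
      map_one' := by
        apply hinj
        rw [hc, map_one, one_smul, Module.End.one_apply]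
      map_mul' := fun g h => by
        apply hinj
        rw [hc, map_mul, Module.End.mul_apply, ← hc h, map_smul, ← hc g, smul_smul, mul_comm] }
  let χ : G →* kˣ := χ₀.toHomUnits
  have hχ : ∀ g, ((χ g : kˣ) : k) = c g := fun g => rfl
  let χ' : G →* kˣ := d * χ⁻¹
  have hχ' : ∀ g, ((χ g : kˣ) : k) * ((χ' g : kˣ) : k) = d g := by
    intro g
    rw [← Units.val_mul]
    simp [χ']
  have hsum : ∀ g, ((χ g : kˣ) : k) + ((χ' g : kˣ) : k) = t g := by
    intro g
    have h1 := LinearMap.congr_fun (hq g) w₀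
    simp only [LinearMap.add_apply, LinearMap.sub_apply, Module.End.mul_apply,
      LinearMap.smul_apply, Module.End.one_apply, LinearMap.zero_apply] at h1
    rw [← hc g, map_smul, ← hc g, smul_smul, smul_smul, ← sub_smul, ← add_smul] at h1
    have h2 : c g * c g - t g * c g + d g = 0 := by
      rcases smul_eq_zero.1 h1 with h | h
      · exact h
      · exact absurd h hw₀
    have h3 : ((χ g : kˣ) : k) ≠ 0 := (χ g).ne_zero
    apply mul_left_cancel₀ h3
    rw [mul_add, hχ', hχ]
    linear_combination h2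
  let sc : k →* Module.End k k := (algebraMap k (Module.End k k)).toMonoidHom
  let π' : G →* Module.End k (k × k) :=
    (LinearMap.prodMapRingHom k k k).toMonoidHom.comp
      (MonoidHom.prod (sc.comp ((Units.coeHom k).comp χ)) (sc.comp ((Units.coeHom k).comp χ')))
  have hπ' : ∀ g, π' g = LinearMap.prodMap (((χ g : kˣ) : k) • (1 : Module.End k k))
      (((χ' g : kˣ) : k) • (1 : Module.End k k)) := by
    intro g
    simp only [π', sc, MonoidHom.comp_apply, MonoidHom.prod_apply]
    simp [Algebra.algebraMap_eq_smul_one]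
  refine ⟨π', fun g => ?_, fun g hg hd => ?_⟩
  · rw [hπ', LinearMap.charpoly_prodMap, q1_charpoly_scalar', q1_charpoly_scalar',
      Module.finrank_self, pow_one, pow_one, ← hsum, ← hχ']
    simp only [map_add, map_mul]
    ring
  · have h1 : χ g = 1 := by
      apply Units.ext
      rw [hχ, Units.val_one]
      apply hinj
      rw [hc, hg, one_smul, Module.End.one_apply]
    have h2 : χ' g = 1 := by simp [χ', h1, hd]
    rw [hπ', h1, h2]
    simp

end final

theorem exists_rep_of_quadratic {k : Type} [Field k] (p : ℕ) [Fact p.Prime] [CharP k p]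
    {G : Type} [Group G] {V : Type} [AddCommGroup V] [Module k V] [Nontrivial V]
    (π : G →* Module.End k V) (hfin : (Set.range π).Finite) (d : G →* kˣ) (t : G → k)
    (hq : ∀ g, π g * π g - t g • π g + (d g : k) • (1 : Module.End k V) = 0) :
    ∃ (W : Type) (_ : AddCommGroup W) (_ : Module k W) (_ : Module.Finite k W)
      (π' : G →* Module.End k W),
      Module.finrank k W = 2 ∧
      (∀ g, LinearMap.charpoly (π' g) = X ^ 2 - C (t g) * X + C (d g : k)) ∧
      (∀ g, π g = 1 → d g = 1 → π' g = 1) := by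
  obtain ⟨U, hUne, hUst, hUmin⟩ := q1_exists_simple π hfin
  let πU : G →* Module.End k U :=
    { toFun := fun g => (π g).restrict (hUst g)
      map_one' := by
        ext x
        simp
      map_mul' := fun g h => by
        ext x
        simp }
  have hπU : ∀ g (x : U), ((πU g x : U) : V) = π g x := fun g x => rfl
  haveI : Nontrivial U := (Submodule.nontrivial_iff_ne_bot).2 hUne
  have hqU : ∀ g, πU g * πU g - t g • πU g + ((d g : kˣ) : k) • (1 : Module.End k U) = 0 := by
    intro g
    ext x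
    have := LinearMap.congr_fun (hq g) (x : V)
    simpa [hπU] using this
  have hirr : ∀ U' : Submodule k U, (∀ g, ∀ x ∈ U', πU g x ∈ U') → U' = ⊥ ∨ U' = ⊤ := by
    intro U' hst
    rcases hUmin (U'.map U.subtype) (Submodule.map_subtype_le U U') (by
      intro g x hx
      obtain ⟨y, hy, rfl⟩ := (Submodule.mem_map).1 hx
      exact (Submodule.mem_map).2 ⟨πU g y, hst g y hy, rfl⟩) with h | h
    · left
      apply Submodule.map_injective_of_injective U.injective_subtype
      rw [h, Submodule.map_bot]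
    · right
      apply Submodule.map_injective_of_injective U.injective_subtype
      rw [h, Submodule.map_subtype_top]
  have hfinU : (Set.range πU).Finite := by
    haveI : Finite (Set.range π) := hfin
    let φ : Set.range π → Module.End k U := fun f => πU (Classical.choose f.2)
    refine (Set.finite_range φ).subset ?_
    rintro _ ⟨g, rfl⟩
    refine ⟨⟨π g, g, rfl⟩, ?_⟩
    have h := Classical.choose_spec (⟨π g, g, rfl⟩ : Set.range π).2
    ext x
    simp only [φ, hπU]
    exact LinearMap.congr_fun h x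
  obtain ⟨hfd, hle⟩ := q1_dim (d := d) (t := t) p hqU hirr hfinU
  have hpos : 0 < Module.finrank k U := Module.finrank_pos
  have hker : ∀ g, π g = 1 → πU g = 1 := by
    intro g hg
    ext x
    simp [hπU, hg]
  rcases (by omega : Module.finrank k U = 1 ∨ Module.finrank k U = 2) with h1 | h2
  · obtain ⟨π', h, h'⟩ := q1_dim_one πU d t hqU h1
    exact ⟨k × k, inferInstance, inferInstance, inferInstance, π', by simp, h,
      fun g hg hd => h' g (hker g hg) hd⟩
  · refine ⟨U, inferInstance, inferInstance, hfd, πU, h2, fun g => ?_, fun g hg _ => hker g hg⟩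
    by_cases hsc : ∃ c : k, πU g = c • (1 : Module.End k U)
    · obtain ⟨c, hc⟩ := hsc
      obtain ⟨ht, hd⟩ := q1_scalar hqU hirr (by omega) g c hc
      rw [hc, q1_charpoly_scalar h2, ht, hd]
    · push Not at hsc
      exact q1_charpoly_nonscalar h2 (πU g) (t g) (d g) (hqU g) hsc

end Fermat.Agent.QRLib
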