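import Mathlib
import Fermat.Agent.Lib.FrobeniusExists
import Fermat.Prelude.Def_GaloisRep_Residual

/-!
# QR library, leaf (Q3): the mod `p` cyclotomic character with values in `k`
-/

set_option autoImplicit false

namespace Fermat.Agent.QRLib

open Polynomial

local notation "Qbar" => AlgebraicClosure ℚ
local notation "GQ" => (AlgebraicClosure ℚ ≃ₐ[ℚ] AlgebraicClosure ℚ)

theorem Q3.modEq_of_pow_eq {M : Type*} [Monoid M] {p : ℕ} (hp : p.Prime) {z : M} (hz : z ^ p = 1)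
    (hz1 : z ≠ 1) {a b : ℕ} (h : z ^ a = z ^ b) : a ≡ b [MOD p] := by
  have : Fact p.Prime := ⟨hp⟩
  have ho : orderOf z = p := orderOf_eq_prime hz hz1
  have hfin : IsOfFinOrder z := isOfFinOrder_iff_pow_eq_one.2 ⟨p, hp.pos, hz⟩
  have := hfin.pow_eq_pow_iff_modEq.1 h
  rwa [ho] at this

theorem Q3.key {p : ℕ} [Fact p.Prime] {ζ : Qbar} (hζ : IsPrimitiveRoot ζ p) {ℓ : ℕ}
    (hℓ : ℓ.Prime) (hℓp : ℓ ≠ p) (A : ValuationSubring Qbar) (hA : A.LiesOverPrime ℓ)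
    (hζA : ζ ∈ A) (g : A.decompositionSubgroup ℚ) (m : ℕ)
    (h : g • IsLocalRing.residue A ⟨ζ, hζA⟩ = (IsLocalRing.residue A ⟨ζ, hζA⟩) ^ m) :
    ((hζ.autToPow ℚ (g : GQ) : (ZMod p)ˣ) : ZMod p) = (m : ZMod p) := by
  have hp : p.Prime := Fact.out
  set z := IsLocalRing.residue A ⟨ζ, hζA⟩ with hz
  -- `ℓ = 0` in the residue field
  have hℓ0 : ((ℓ : ℕ) : IsLocalRing.ResidueField A) = 0 := by
    obtain ⟨ha, hm⟩ := ValuationSubring.mem_nonunits_iff_exists_mem_maximalIdeal.1 hA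
    have h1 := (IsLocalRing.residue_eq_zero_iff _).2 hm
    have h2 : (⟨(ℓ : Qbar), ha⟩ : A) = ((ℓ : ℕ) : A) := Subtype.ext (by simp)
    rw [h2, map_natCast] at h1
    exact h1
  have hzp : z ^ p = 1 := by
    rw [hz, ← map_pow]
    have : (⟨ζ, hζA⟩ : A) ^ p = 1 := Subtype.ext (by simpa using hζ.pow_eq_one)
    rw [this, map_one]
  have hz1 : z ≠ 1 := by
    intro h1
    have h2 : ∑ i ∈ Finset.range p, (⟨ζ, hζA⟩ : A) ^ i = 0 := by
      apply Subtype.ext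
      have := hζ.geom_sum_eq_zero hp.one_lt
      simpa using this
    have h3 := congrArg (IsLocalRing.residue A) h2
    rw [map_sum, map_zero] at h3
    simp only [map_pow, ← hz, h1, one_pow, Finset.sum_const, Finset.card_range, nsmul_eq_mul,
      mul_one] at h3
    have hcop : IsCoprime (p : ℤ) (ℓ : ℤ) :=
      Nat.isCoprime_iff_coprime.2 ((Nat.coprime_primes hp hℓ).2 (Ne.symm hℓp))
    obtain ⟨a, b, hab⟩ := hcop
    have h4 := congrArg (Int.cast : ℤ → IsLocalRing.ResidueField A) hab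
    push_cast at h4
    rw [h3, hℓ0, mul_zero, mul_zero, add_zero] at h4
    exact zero_ne_one h4
  have hspec := hζ.autToPow_spec ℚ (g : GQ)
  set a : ℕ := ((hζ.autToPow ℚ (g : GQ) : (ZMod p)ˣ) : ZMod p).val with ha
  have hg : g • (⟨ζ, hζA⟩ : A) = (⟨ζ, hζA⟩ : A) ^ a := by
    apply Subtype.ext
    show (g : GQ) ζ = _
    rw [← hspec]
    simp
  have h5 : z ^ a = z ^ m := by
    rw [← h, hz, ← IsLocalRing.ResidueField.residue_smul, hg, map_pow]
  have h6 := Q3.modEq_of_pow_eq hp hzp hz1 h5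
  rw [← ZMod.natCast_eq_natCast_iff, ha, ZMod.natCast_zmod_val] at h6
  exact h6

theorem exists_cyclo (p : ℕ) [Fact p.Prime] (k : Type) [Field k] [CharP k p] :
    ∃ ω : GQ →* kˣ,
      (∃ L : IntermediateField ℚ Qbar, FiniteDimensional ℚ L ∧
        ∀ σ : GQ, (∀ x ∈ L, σ x = x) → ω σ = 1) ∧
      (∀ ℓ : ℕ, ℓ.Prime → ℓ ≠ p → ∀ A : ValuationSubring Qbar, A.LiesOverPrime ℓ →
        ∀ σ : GQ, A.IsFrobeniusAt σ ℓ → ((ω σ : kˣ) : k) = (ℓ : k)) ∧
      (∀ ℓ : ℕ, ℓ.Prime → ℓ ≠ p → ∀ A : ValuationSubring Qbar, A.LiesOverPrime ℓ →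
        ∀ σ ∈ A.inertiaSubgroupIn ℚ, ω σ = 1) := by
  have hp : p.Prime := Fact.out
  obtain ⟨ζ, hζ⟩ := HasEnoughRootsOfUnity.exists_primitiveRoot Qbar p
  have hint : IsIntegral ℤ ζ := hζ.isIntegral hp.pos
  refine ⟨(Units.map (ZMod.castHom (dvd_refl p) k).toMonoidHom).comp (hζ.autToPow ℚ), ?_, ?_, ?_⟩
  · refine ⟨IntermediateField.adjoin ℚ {ζ},
      IntermediateField.adjoin.finiteDimensional (hint.tower_top), ?_⟩
    intro σ hσ
    have h1 : σ ζ = ζ := hσ ζ (IntermediateField.mem_adjoin_simple_self ℚ ζ)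
    have hspec := hζ.autToPow_spec ℚ σ
    rw [h1] at hspec
    have h2 : ζ ^ ((hζ.autToPow ℚ σ : (ZMod p)ˣ) : ZMod p).val = ζ ^ 1 := by rw [hspec, pow_one]
    have h3 := Q3.modEq_of_pow_eq hp hζ.pow_eq_one (hζ.ne_one hp.one_lt) h2
    rw [← ZMod.natCast_eq_natCast_iff, ZMod.natCast_zmod_val, Nat.cast_one] at h3
    have h4 : hζ.autToPow ℚ σ = 1 := Units.ext h3
    rw [MonoidHom.comp_apply, h4, map_one]
  · intro ℓ hℓ hℓp A hA σ hσ
    obtain ⟨hd, hF⟩ := hσ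
    have hζA : ζ ∈ A := Fermat.Agent.FrobLib.integral_mem_valuationSubring A hint
    have h1 := Q3.key hζ hℓ hℓp A hA hζA ⟨σ, hd⟩ ℓ (hF _)
    rw [MonoidHom.comp_apply, Units.coe_map]
    show (ZMod.castHom (dvd_refl p) k) ((hζ.autToPow ℚ σ : (ZMod p)ˣ) : ZMod p) = _
    rw [h1, map_natCast]
  · intro ℓ hℓ hℓp A hA σ hσ
    obtain ⟨s, hs, rfl⟩ := hσ
    have hζA : ζ ∈ A := Fermat.Agent.FrobLib.integral_mem_valuationSubring A hint
    have hs' : MulSemiringAction.toRingAut (A.decompositionSubgroup ℚ)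
        (IsLocalRing.ResidueField A) s = 1 := hs
    have h0 : s • IsLocalRing.residue A ⟨ζ, hζA⟩ = (IsLocalRing.residue A ⟨ζ, hζA⟩) ^ 1 := by
      have := congrArg (fun f => f (IsLocalRing.residue A ⟨ζ, hζA⟩)) hs'
      simpa using this
    have h1 := Q3.key hζ hℓ hℓp A hA hζA s 1 h0
    rw [Nat.cast_one] at h1
    have h4 : hζ.autToPow ℚ ((A.decompositionSubgroup ℚ).subtype s) = 1 := Units.ext h1
    rw [MonoidHom.comp_apply, h4, map_one]

end Fermat.Agent.QRLib
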