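import Mathlib

/-!
# QR library, leaf (Q2): powers of an element satisfying a quadratic relation
-/

set_option autoImplicit false

namespace Fermat.Agent.QRLib

theorem quadratic_pow {R A : Type*} [CommRing R] [Ring A] [Algebra R A] (h : A) (a d : R)
    (hq : h * h - a • h + d • (1 : A) = 0) (i : ℕ) :
    ∃ a' : R, h ^ i * h ^ i - a' • h ^ i + d ^ i • (1 : A) = 0 := by
  set h' : A := a • (1 : A) - h with hh'
  have hc : Commute h h' :=
    (Commute.smul_right (Commute.one_right h) a).sub_right (Commute.refl h)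
  have hmul : h * h' = d • (1 : A) := by
    rw [hh', mul_sub, mul_smul_comm, mul_one]
    calc a • h - h * h = d • (1 : A) - (h * h - a • h + d • (1 : A)) := by abel
      _ = d • (1 : A) := by rw [hq, sub_zero]
  have hmul' : h' * h = d • (1 : A) := by rw [← hc.eq, hmul]
  have hadd : h + h' = a • (1 : A) := by rw [hh']; abel
  have hsum : ∀ j : ℕ, (∃ s : R, h ^ j + h' ^ j = s • (1 : A)) ∧
      (∃ s : R, h ^ (j + 1) + h' ^ (j + 1) = s • (1 : A)) := by
    intro j
    induction j with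
    | zero =>
      refine ⟨⟨2, ?_⟩, ⟨a, ?_⟩⟩
      · rw [pow_zero, pow_zero, two_smul]
      · simpa using hadd
    | succ j ih =>
      obtain ⟨⟨s0, hs0⟩, ⟨s1, hs1⟩⟩ := ih
      refine ⟨⟨s1, hs1⟩, ⟨a * s1 - d * s0, ?_⟩⟩
      have e : h ^ (j + 1 + 1) + h' ^ (j + 1 + 1) =
          (h + h') * (h ^ (j + 1) + h' ^ (j + 1)) - ((h * h') * h' ^ j + (h' * h) * h ^ j) := by
        simp only [pow_succ']
        noncomm_ring
      rw [e, hadd, hs1, hmul, hmul']
      simp only [smul_mul_assoc, one_mul]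
      rw [← smul_add, add_comm (h' ^ j), hs0, smul_smul, smul_smul, ← sub_smul]
  obtain ⟨s, hs⟩ := (hsum i).1
  refine ⟨s, ?_⟩
  have hpow : h' ^ i * h ^ i = d ^ i • (1 : A) := by
    rw [← hc.symm.mul_pow, hmul', smul_pow, one_pow]
  have e : s • h ^ i = (h ^ i + h' ^ i) * h ^ i := by rw [hs, smul_mul_assoc, one_mul]
  rw [e, add_mul, hpow]
  abel

end Fermat.Agent.QRLib
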