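import Mathlib
import Fermat.Agent.Lib.Chebotarev.Main
import Fermat.Agent.Lib.QuadRep.Algebra
import Fermat.Agent.Lib.QuadRep.Pow
import Fermat.Agent.Lib.QuadRep.Cyclo
import Fermat.Prelude.Def_GaloisRep_Residual

/-!
# QR library, leaf (Q4): quadratic Frobenius relations give a residual Galois representation
-/

set_option autoImplicit false

namespace Fermat.Agent.QRLib

open Polynomial

local notation "Qbar" => AlgebraicClosure ℚ
local notation "GQ" => (AlgebraicClosure ℚ ≃ₐ[ℚ] AlgebraicClosure ℚ)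

theorem Q4.finite_range {M : Type} [Monoid M] (ρ : GQ →* M)
    (L : IntermediateField ℚ Qbar) [FiniteDimensional ℚ L]
    (h : ∀ σ : GQ, (∀ x ∈ L, σ x = x) → ρ σ = 1) : (Set.range ρ).Finite := by
  have hfin : Finite (L →ₐ[ℚ] Qbar) := inferInstance
  have key : ∀ σ τ : GQ, (σ : Qbar →ₐ[ℚ] Qbar).comp L.val = (τ : Qbar →ₐ[ℚ] Qbar).comp L.val →
      ρ σ = ρ τ := by
    intro σ τ hst
    have h1 : ρ (τ⁻¹ * σ) = 1 := by
      apply h
      intro x hx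
      have h2 := congrArg (fun f => f ⟨x, hx⟩) hst
      have h3 : σ x = τ x := h2
      rw [AlgEquiv.mul_apply, h3]
      exact τ.symm_apply_apply x
    calc ρ σ = ρ (τ * (τ⁻¹ * σ)) := by rw [mul_inv_cancel_left]
      _ = ρ τ := by rw [map_mul, h1, mul_one]
  rw [← Set.finite_coe_iff]
  refine Finite.of_injective
    (fun x : Set.range ρ => ((x.2.choose : GQ) : Qbar →ₐ[ℚ] Qbar).comp L.val) ?_
  intro x y hxy
  apply Subtype.ext
  rw [← x.2.choose_spec, ← y.2.choose_spec]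
  exact key _ _ hxy

theorem exists_residualRep_of_quadratic {k : Type} [Field k] (p : ℕ) [Fact p.Prime] [CharP k p]
    {V : Type} [AddCommGroup V] [Module k V] [Nontrivial V]
    (ρ : GQ →* Module.End k V) (hlev : GaloisFactorsThroughFiniteLevel ρ)
    (D : ℕ) (hD : D ≠ 0) (hpD : p ∣ D) (a : ℕ → k)
    (hunr : ∀ ℓ : ℕ, ℓ.Prime → ¬ ℓ ∣ D → ∀ A : ValuationSubring Qbar, A.LiesOverPrime ℓ →
      ∀ σ ∈ A.inertiaSubgroupIn ℚ, ρ σ = 1)
    (hquad : ∀ ℓ : ℕ, ℓ.Prime → ¬ ℓ ∣ D → ∀ A : ValuationSubring Qbar, A.LiesOverPrime ℓ →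
      ∀ σ : GQ, A.IsFrobeniusAt σ ℓ →
        ρ σ * ρ σ - a ℓ • ρ σ + (ℓ : k) • (1 : Module.End k V) = 0) :
    ∃ ρ' : ResidualGaloisRep k,
      (∀ ℓ : ℕ, ℓ.Prime → ¬ ℓ ∣ D → ρ'.IsUnramifiedAt ℓ) ∧
      ∀ ℓ : ℕ, ℓ.Prime → ¬ ℓ ∣ D → ∀ A : ValuationSubring Qbar, A.LiesOverPrime ℓ →
        ∀ σ : GQ, A.IsFrobeniusAt σ ℓ →
          LinearMap.charpoly (ρ'.ρ σ) = X ^ 2 - C (a ℓ) * X + C (ℓ : k) := by
  obtain ⟨ω, ⟨Lω, hLω, hω1⟩, hωF, hωI⟩ := exists_cyclo p k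
  obtain ⟨Lρ, hLρ, hρ1⟩ := hlev
  have hne : ∀ ℓ : ℕ, ¬ ℓ ∣ D → ℓ ≠ p := fun ℓ h e => h (e ▸ hpD)
  -- the common finite level
  have hLfin : FiniteDimensional ℚ (Lρ ⊔ Lω : IntermediateField ℚ Qbar) :=
    IntermediateField.finiteDimensional_sup Lρ Lω
  have hL1 : ∀ σ : GQ, (∀ x ∈ (Lρ ⊔ Lω : IntermediateField ℚ Qbar), σ x = x) →
      ρ σ = 1 ∧ ω σ = 1 := fun σ hσ =>
    ⟨hρ1 σ fun x hx => hσ x ((le_sup_left : Lρ ≤ Lρ ⊔ Lω) hx),
      hω1 σ fun x hx => hσ x ((le_sup_right : Lω ≤ Lρ ⊔ Lω) hx)⟩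
  -- the open normal subgroup
  set U : Subgroup GQ := (ρ.toHomUnits.prod ω).ker with hUdef
  have hUmem : ∀ σ : GQ, σ ∈ U ↔ ρ σ = 1 ∧ ω σ = 1 := by
    intro σ
    rw [hUdef, MonoidHom.mem_ker, MonoidHom.prod_apply, Prod.mk_eq_one, Units.ext_iff]
    simp
  have hUn : U.Normal := MonoidHom.normal_ker _
  have hUo : IsOpen (U : Set GQ) := by
    refine Subgroup.isOpen_mono (H₁ := (Lρ ⊔ Lω : IntermediateField ℚ Qbar).fixingSubgroup) ?_
      (IntermediateField.fixingSubgroup_isOpen _)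
    intro σ hσ
    rw [hUmem]
    apply hL1
    intro x hx
    exact (IntermediateField.mem_fixingSubgroup_iff _ σ).1 hσ x hx
  -- quadratic relation for every element
  have hex : ∀ g : GQ, ∃ t : k,
      ρ g * ρ g - t • ρ g + ((ω g : kˣ) : k) • (1 : Module.End k V) = 0 := by
    intro g
    obtain ⟨ℓ, A, τ, n, -, hℓ, hℓS, hA, hτ, hg, -⟩ :=
      Fermat.Agent.ChebLib.weak_chebotarev U hUo hUn g D.primeFactors
    have hℓD : ¬ ℓ ∣ D := fun h => hℓS (Nat.mem_primeFactors.2 ⟨hℓ, h, hD⟩)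
    obtain ⟨h1, h2⟩ := (hUmem _).1 hg
    have e1 : ρ g = ρ τ ^ n := by
      calc ρ g = ρ g * ρ (g⁻¹ * τ ^ n) := by rw [h1, mul_one]
        _ = ρ τ ^ n := by rw [← map_mul, mul_inv_cancel_left, map_pow]
    have e2 : ω g = ω τ ^ n := by
      calc ω g = ω g * ω (g⁻¹ * τ ^ n) := by rw [h2, mul_one]
        _ = ω τ ^ n := by rw [← map_mul, mul_inv_cancel_left, map_pow]
    obtain ⟨t, ht⟩ := quadratic_pow (ρ τ) (a ℓ) (ℓ : k) (hquad ℓ hℓ hℓD A hA τ hτ) n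
    refine ⟨t, ?_⟩
    rw [e1, e2, Units.val_pow_eq_pow_val, hωF ℓ hℓ (hne ℓ hℓD) A hA τ hτ]
    exact ht
  choose t ht using hex
  have hfin : (Set.range ρ).Finite :=
    Q4.finite_range ρ (Lρ ⊔ Lω : IntermediateField ℚ Qbar) fun σ hσ => (hL1 σ hσ).1
  obtain ⟨W, iA, iM, iF, π', hrank, hchar, hone⟩ := exists_rep_of_quadratic p ρ hfin ω t ht
  refine ⟨{ V := W, finrank_eq := hrank, ρ := π',
            factorsThroughFiniteLevel := ⟨Lρ ⊔ Lω, hLfin, fun σ hσ =>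
              hone σ (hL1 σ hσ).1 (hL1 σ hσ).2⟩ }, ?_, ?_⟩
  · intro ℓ hℓ hℓD A hA σ hσ
    exact hone σ (hunr ℓ hℓ hℓD A hA σ hσ) (hωI ℓ hℓ (hne ℓ hℓD) A hA σ hσ)
  · intro ℓ hℓ hℓD A hA σ hσ
    show LinearMap.charpoly (π' σ) = _
    rw [hchar σ, hωF ℓ hℓ (hne ℓ hℓD) A hA σ hσ]
    have h1 := ht σ
    rw [hωF ℓ hℓ (hne ℓ hℓD) A hA σ hσ] at h1
    have h2 := hquad ℓ hℓ hℓD A hA σ hσ
    have h3 : (t σ - a ℓ) • ρ σ = 0 := by
      rw [sub_smul]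
      have : t σ • ρ σ - a ℓ • ρ σ =
          (ρ σ * ρ σ - a ℓ • ρ σ + (ℓ : k) • (1 : Module.End k V)) -
          (ρ σ * ρ σ - t σ • ρ σ + (ℓ : k) • (1 : Module.End k V)) := by abel
      rw [this, h1, h2, sub_zero]
    have h4 : (t σ - a ℓ) • (1 : Module.End k V) = 0 := by
      have : (1 : Module.End k V) = ρ σ * ρ σ⁻¹ := by rw [← map_mul, mul_inv_cancel, map_one]
      rw [this, ← smul_mul_assoc, h3, zero_mul]
    have h5 : t σ - a ℓ = 0 := by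
      rcases smul_eq_zero.1 h4 with h | h
      · exact h
      · exact absurd h one_ne_zero
    rw [sub_eq_zero.1 h5]

end Fermat.Agent.QRLib
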