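import Mathlib
import Fermat.Agent.S13.Count
import Fermat.Prelude.Def_GaloisRep_Residual
import Fermat.Prelude.Def_FreyPackage_EigenformResidualAttachment

/-!
# (W42): S42 follows from the statement of S29
-/

set_option autoImplicit false
set_option linter.style.haveILetI false

namespace Fermat.Agent.QRLib

open Polynomial WeierstrassCurve WeierstrassCurve.Affine WeierstrassCurve.Affine.Point

local notation "Qbar" => AlgebraicClosure ℚ
local notation "GQ" => (AlgebraicClosure ℚ ≃ₐ[ℚ] AlgebraicClosure ℚ)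

/-- the coordinates of a point -/
def w42_coords {W : Affine Qbar} : W.Point → Set Qbar
  | .zero => ∅
  | .some x y _ => {x, y}

lemma w42_coords_finite {W : Affine Qbar} (x : W.Point) : (w42_coords x).Finite := by
  rcases x with _ | ⟨x, y, h⟩
  · exact Set.finite_empty
  · exact (Set.finite_singleton y).insert x

lemma w42_map_eq_self [DecidableEq Qbar] (E : WeierstrassCurve ℚ) (σ : GQ) (x : (E⁄Qbar).Point)
    (h : ∀ c ∈ w42_coords x, σ c = c) : Point.map (W' := E) σ.toAlgHom x = x := by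
  rcases x with _ | ⟨x, y, hn⟩
  · rfl
  · rw [Point.map_some]
    have h1 : σ x = x := h x (by simp [w42_coords])
    have h2 : σ y = y := h y (by simp [w42_coords])
    simp [h1, h2]

/-- the mod `p` representation of the Frey curve factors through a finite level -/
theorem w42_frey_finite_level (P : FreyPackage) :
    GaloisFactorsThroughFiniteLevel
      (galoisRepModuleEnd (S := ℚ) (K := AlgebraicClosure ℚ) P.freyCurve P.p) := by
  obtain ⟨hfin, -⟩ := Fermat.Agent.S13Lib.frey_torsion_card P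
  let S : Set Qbar := ⋃ x ∈ {x : (P.freyCurve⁄Qbar).Point | P.p • x = 0}, w42_coords x
  have hS : S.Finite := hfin.biUnion (fun x _ => w42_coords_finite x)
  haveI : Finite S := hS
  haveI : FiniteDimensional ℚ (IntermediateField.adjoin ℚ S) :=
    IntermediateField.finiteDimensional_adjoin
      (fun x _ => (AlgebraicClosure.isAlgebraic ℚ).isIntegral.isIntegral x)
  refine ⟨IntermediateField.adjoin ℚ S, inferInstance, fun σ hσ => ?_⟩
  apply LinearMap.ext
  intro x
  apply Subtype.ext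
  change Point.map (W' := P.freyCurve) σ.toAlgHom x.1 = x.1
  apply w42_map_eq_self
  intro c hc
  have hx : P.p • x.1 = 0 := by
    have := x.2
    rwa [Submodule.mem_torsionBy_iff, natCast_zsmul] at this
  have hcS : c ∈ S := Set.mem_biUnion (show x.1 ∈ {x | P.p • x = 0} from hx) hc
  exact hσ c (IntermediateField.subset_adjoin ℚ S hcS)

lemma w42_trace {K V : Type} [Field K] [AddCommGroup V] [Module K V] [Module.Finite K V]
    (h2 : Module.finrank K V = 2) (f : Module.End K V) (a d : K)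
    (hf : LinearMap.charpoly f = X ^ 2 - C a * X + C d) :
    LinearMap.trace K V f = a := by
  let b : Module.Basis (Fin 2) K V := Module.finBasisOfFinrankEq K V h2
  rw [LinearMap.trace_eq_matrix_trace K b f, Matrix.trace_eq_neg_charpoly_coeff,
    LinearMap.charpoly_toMatrix, hf]
  simp [coeff_C]

lemma w42_det {K V : Type} [Field K] [AddCommGroup V] [Module K V] [Module.Finite K V]
    (h2 : Module.finrank K V = 2) (f : Module.End K V) (a d : K)
    (hf : LinearMap.charpoly f = X ^ 2 - C a * X + C d) :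
    LinearMap.det f = d := by
  rw [LinearMap.det_eq_sign_charpoly_coeff, h2, hf]
  simp

theorem attachment_of_residual
    (h29 : ∀ {N : ℕ} {g : CuspForm (CongruenceSubgroup.Gamma0 N) 2} (_ : g.IsNormalizedEigenform)
      {p : ℕ} (_ : p.Prime) {k : Type} [Field k] [CharP k p] (φ : integralClosure ℤ ℂ →+* k),
      ∃ ρ : ResidualGaloisRep k, ρ.IsAttachedTo g φ ∧
        ∀ ℓ : ℕ, ℓ.Prime → ¬ ℓ ∣ N * p → ρ.IsUnramifiedAt ℓ)
    (P : FreyPackage) : ∀ M : ℕ, 0 < M → P.EigenformResidualAttachmentAt M := by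
  intro M _ g hg 𝔪 h𝔪 hp𝔪
  letI : Field (integralClosure ℤ ℂ ⧸ 𝔪) := Ideal.Quotient.field 𝔪
  haveI : CharP (integralClosure ℤ ℂ ⧸ 𝔪) P.p := by
    rw [CharP.charP_iff_prime_eq_zero P.pp]
    have : Ideal.Quotient.mk 𝔪 (P.p : integralClosure ℤ ℂ) = 0 :=
      Ideal.Quotient.eq_zero_iff_mem.2 hp𝔪
    simpa using this
  obtain ⟨ρ, hatt, -⟩ := h29 hg P.pp (Ideal.Quotient.mk 𝔪)
  obtain ⟨L₁, hL₁, h1⟩ := ρ.factorsThroughFiniteLevel
  obtain ⟨L₂, hL₂, h2⟩ := w42_frey_finite_level P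
  haveI : FiniteDimensional ℚ (L₁ ⊔ L₂ : IntermediateField ℚ Qbar) :=
    IntermediateField.finiteDimensional_sup L₁ L₂
  let F : IntermediateField ℚ Qbar :=
    IntermediateField.normalClosure ℚ (L₁ ⊔ L₂ : IntermediateField ℚ Qbar) Qbar
  haveI hFfd : FiniteDimensional ℚ F := normalClosure.is_finiteDimensional ℚ _ Qbar
  haveI : Algebra.IsAlgebraic ℚ Qbar := AlgebraicClosure.isAlgebraic ℚ
  haveI : IsAlgClosure ℚ Qbar := ⟨inferInstance, inferInstance⟩
  haveI : Normal ℚ Qbar := IsAlgClosure.normal ℚ Qbar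
  haveI hFn : Normal ℚ F := normalClosure.normal ℚ _ Qbar
  haveI hFnf : NumberField F := { to_charZero := inferInstance, to_finiteDimensional := hFfd }
  haveI hFg : IsGalois ℚ F := ⟨⟩
  have hLF : (L₁ ⊔ L₂ : IntermediateField ℚ Qbar) ≤ F := IntermediateField.le_normalClosure _
  have hℓ : ∀ ℓ : ℕ, ℓ.Prime → ℓ ≠ P.p → (ℓ : integralClosure ℤ ℂ ⧸ 𝔪) ≠ 0 := by
    intro ℓ hℓ hne h0
    rw [CharP.cast_eq_zero_iff _ P.p] at h0
    exact hne ((Nat.prime_dvd_prime_iff_eq P.pp hℓ).1 h0).symm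
  refine ⟨integralClosure ℤ ℂ ⧸ 𝔪, inferInstance, ZMod.algebra _ P.p, ρ.V, inferInstance,
    inferInstance, ρ.ρ, Ideal.Quotient.mk 𝔪, F, inferInstance, hFnf, hFg, inferInstance,
    inferInstance, ?_, ρ.finrank_eq, ?_, ?_, ?_⟩
  · rw [Ideal.mk_ker]
  · intro σ hσ
    have hfix : ∀ x ∈ F, σ x = x := by
      intro x hx
      have h3 := AlgEquiv.restrictNormal_commutes σ F ⟨x, hx⟩
      have h4 : σ.restrictNormal F = 1 := hσ
      rw [h4] at h3
      exact h3.symm
    refine ⟨?_, ?_⟩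
    · exact h2 σ fun x hx => hfix x (hLF (le_sup_right (a := L₁) hx))
    · exact h1 σ fun x hx => hfix x (hLF (le_sup_left (b := L₂) hx))
  · intro ℓ hℓp hℓM hne A hA τ hτ
    obtain ⟨a, ha, hcp⟩ := hatt ℓ hℓp hℓM (hℓ ℓ hℓp hne) A hA τ hτ
    exact ⟨a, ha, w42_trace ρ.finrank_eq _ _ _ hcp⟩
  · intro ℓ hℓp hℓM hne A hA τ hτ
    obtain ⟨a, ha, hcp⟩ := hatt ℓ hℓp hℓM (hℓ ℓ hℓp hne) A hA τ hτ
    exact w42_det ρ.finrank_eq _ _ _ hcp

end Fermat.Agent.QRLib
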